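import Fermat.Agent.RegularFactorial.ProjDim
import Mathlib.RingTheory.Ideal.MinimalPrime.Noetherian
import Mathlib.RingTheory.RegularLocalRing.Defs

/-!
# Regular local rings are domains, and their modules have finite projective dimension
-/

set_option autoImplicit false

universe u

open IsLocalRing

namespace Fermat.Agent.RegularFactorial

variable {R : Type u} [CommRing R] [IsLocalRing R] [IsNoetherianRing R]

/-- An element of `m` outside `m ^ 2` is part of a minimal set of generators. -/
theorem exists_complement {x : R} (hx : x ∈ maximalIdeal R) (hx2 : x ∉ maximalIdeal R ^ 2) :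
    ∃ s : Finset R, maximalIdeal R = Ideal.span {x} ⊔ Ideal.span (s : Set R) ∧
      s.card + 1 = (maximalIdeal R).spanFinrank ∧
      ∀ r : R, r * x ∈ Ideal.span (s : Set R) → r ∈ maximalIdeal R := by
  classical
  set m := maximalIdeal R with hm
  obtain ⟨G, hG, hspan⟩ :=
    Submodule.FG.exists_span_finset_card_eq_spanFinrank (IsNoetherian.noetherian m)
  obtain ⟨a, -, ha⟩ := Submodule.mem_span_finset.1 (hspan.symm ▸ hx)
  obtain ⟨g, hg, hga⟩ : ∃ g ∈ G, a g ∉ m := by
    by_contra! h
    refine hx2 ?_
    rw [← ha, pow_two]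
    refine Submodule.sum_mem _ fun g hg => Ideal.mul_mem_mul (h g hg) ?_
    rw [← hspan]
    exact Submodule.subset_span hg
  have hu : IsUnit (a g) := notMem_maximalIdeal.1 hga
  have hsum : x = a g * g + ∑ i ∈ G.erase g, a i * i := by
    conv_lhs => rw [← ha, ← Finset.add_sum_erase _ _ hg]
    rfl
  have hrest : ∑ i ∈ G.erase g, a i * i ∈ Ideal.span ((G.erase g : Finset R) : Set R) :=
    Submodule.sum_mem _ fun i hi => Ideal.mul_mem_left _ _ (Ideal.subset_span hi)
  refine ⟨G.erase g, le_antisymm ?_ (sup_le ((Ideal.span_singleton_le_iff_mem _).2 hx) ?_), ?_, ?_⟩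
  · rw [← hspan, Submodule.span_le]
    intro i hi
    by_cases hig : i = g
    · subst hig
      rw [SetLike.mem_coe, ← Ideal.unit_mul_mem_iff_mem _ hu,
        show a i * i = x - ∑ j ∈ G.erase i, a j * j by rw [hsum]; ring]
      exact Ideal.sub_mem _ (Ideal.mem_sup_left (Ideal.mem_span_singleton_self x))
        (Ideal.mem_sup_right hrest)
    · exact Ideal.mem_sup_right (Ideal.subset_span (Finset.mem_erase.2 ⟨hig, hi⟩))
  · rw [← hspan]
    exact Ideal.span_mono (Finset.coe_subset.2 (Finset.erase_subset _ _))
  · rw [Finset.card_erase_add_one hg, hG]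
  · intro r hr
    by_contra hrm
    have hxs : x ∈ Ideal.span ((G.erase g : Finset R) : Set R) :=
      (Ideal.unit_mul_mem_iff_mem _ (notMem_maximalIdeal.1 hrm)).1 hr
    have hgs : g ∈ Ideal.span ((G.erase g : Finset R) : Set R) := by
      rw [← Ideal.unit_mul_mem_iff_mem _ hu,
        show a g * g = x - ∑ j ∈ G.erase g, a j * j by rw [hsum]; ring]
      exact Ideal.sub_mem _ hxs hrest
    have heq : m = Submodule.span R ((G.erase g : Finset R) : Set R) := by
      refine le_antisymm ?_ ?_
      · rw [← hspan, Submodule.span_le]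
        intro i hi
        by_cases hig : i = g
        · rw [hig]; exact hgs
        · exact Submodule.subset_span (Finset.mem_erase.2 ⟨hig, hi⟩)
      · rw [← hspan]
        exact Submodule.span_mono (Finset.coe_subset.2 (Finset.erase_subset _ _))
    have h1 := Submodule.spanFinrank_span_le_ncard_of_finite (R := R) (G.erase g).finite_toSet
    rw [← heq, Set.ncard_coe_finset, ← hG, ← Finset.card_erase_add_one hg] at h1
    omega

omit [IsNoetherianRing R] in
theorem isLocalRing_quotient {x : R} (hx : x ∈ maximalIdeal R) :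
    IsLocalRing (R ⧸ Ideal.span {x}) := by
  have : Nontrivial (R ⧸ Ideal.span {x}) := Ideal.Quotient.nontrivial_iff.2 fun h =>
    (maximalIdeal.isMaximal R).ne_top (top_le_iff.1 (h ▸ (Ideal.span_singleton_le_iff_mem _).2 hx))
  exact IsLocalRing.of_surjective' (Ideal.Quotient.mk _) Ideal.Quotient.mk_surjective

omit [IsNoetherianRing R] in
theorem map_maximalIdeal_quotient {x : R} (hx : x ∈ maximalIdeal R)
    [IsLocalRing (R ⧸ Ideal.span {x})] :
    (maximalIdeal R).map (Ideal.Quotient.mk (Ideal.span {x})) =
      maximalIdeal (R ⧸ Ideal.span {x}) := by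
  refine eq_maximalIdeal ((Ideal.map_eq_top_or_isMaximal_of_surjective _
    Ideal.Quotient.mk_surjective (maximalIdeal.isMaximal R)).resolve_left fun h => ?_)
  have := congrArg (Ideal.comap (Ideal.Quotient.mk (Ideal.span {x}))) h
  rw [Ideal.comap_map_of_surjective _ Ideal.Quotient.mk_surjective, Ideal.comap_top,
    ← RingHom.ker_eq_comap_bot, Ideal.mk_ker,
    sup_eq_left.2 ((Ideal.span_singleton_le_iff_mem _).2 hx)] at this
  exact (maximalIdeal.isMaximal R).ne_top this

theorem spanFinrank_quotient_add_one_le {x : R} (hx : x ∈ maximalIdeal R)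
    (hx2 : x ∉ maximalIdeal R ^ 2) [IsLocalRing (R ⧸ Ideal.span {x})] :
    (maximalIdeal (R ⧸ Ideal.span {x})).spanFinrank + 1 ≤ (maximalIdeal R).spanFinrank := by
  classical
  obtain ⟨s, hs, hcard, -⟩ := exists_complement hx hx2
  rw [← map_maximalIdeal_quotient hx, hs, Ideal.map_sup, Ideal.map_quotient_self, bot_sup_eq,
    Ideal.map_span, ← hs, ← hcard]
  refine Nat.succ_le_succ ((Submodule.spanFinrank_span_le_ncard_of_finite
    ((Finset.finite_toSet s).image _)).trans ?_)
  exact (Set.ncard_image_le (Finset.finite_toSet s)).trans (Set.ncard_coe_finset s).le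

theorem exists_natCast_eq_ringKrullDim (R : Type u) [CommRing R] [IsLocalRing R]
    [IsNoetherianRing R] : ∃ d : ℕ, ringKrullDim R = d := by
  have h1 := ringKrullDim_le_spanFinrank_maximalIdeal R
  have h0 : (0 : WithBot ℕ∞) ≤ ringKrullDim R := ringKrullDim_nonneg_of_nontrivial
  revert h0 h1
  generalize ringKrullDim R = q
  induction q with
  | bot => intro _ h; simp at h
  | coe q =>
    intro h _
    cases q with
    | top => exact absurd h (not_le.2 (WithBot.coe_lt_coe.2 (ENat.natCast_lt_top _)))
    | coe d => exact ⟨d, rfl⟩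

theorem dim_le_dim_quotient_add_one {x : R} (hx : x ∈ maximalIdeal R) :
    ringKrullDim R ≤ ringKrullDim (R ⧸ Ideal.span {x}) + 1 := by
  rw [← IsLocalRing.maximalIdeal_height_eq_ringKrullDim]
  exact Ideal.height_le_ringKrullDim_quotient_add_one hx

/-- The quotient of a regular local ring by an element outside `m ^ 2`. -/
theorem isRegularLocalRing_quotient {R : Type u} [CommRing R] [IsRegularLocalRing R] {x : R}
    (hx : x ∈ maximalIdeal R)
    (hx2 : x ∉ maximalIdeal R ^ 2) : IsRegularLocalRing (R ⧸ Ideal.span {x}) := by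
  have := isLocalRing_quotient hx
  refine IsRegularLocalRing.of_spanFinrank_maximalIdeal_le _ ?_
  have h1 := spanFinrank_quotient_add_one_le hx hx2
  have h2 := dim_le_dim_quotient_add_one hx
  rw [← IsRegularLocalRing.spanFinrank_maximalIdeal] at h2
  obtain ⟨d, hd⟩ := exists_natCast_eq_ringKrullDim (R ⧸ Ideal.span {x})
  rw [hd] at h2 ⊢
  norm_cast at h2 ⊢
  omega

theorem exists_mem_notMem_sq (h : (maximalIdeal R).spanFinrank ≠ 0) :
    ∃ x, x ∈ maximalIdeal R ∧ x ∉ maximalIdeal R ^ 2 := by
  refine SetLike.not_le_iff_exists.1 fun hle => h ?_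
  have h0 := Submodule.eq_bot_of_le_smul_of_le_jacobson_bot (maximalIdeal R) (maximalIdeal R)
    (IsNoetherian.noetherian _) (by rwa [Ideal.smul_eq_mul, ← pow_two])
    (maximalIdeal_le_jacobson _)
  rw [h0]
  exact Submodule.spanFinrank_bot

theorem isDomain_aux (n : ℕ) : ∀ (R : Type u) [CommRing R] [IsRegularLocalRing R],
    (maximalIdeal R).spanFinrank = n → IsDomain R := by
  induction n using Nat.strong_induction_on with
  | _ n ih =>
    intro R _ _ hn
    rcases Nat.eq_zero_or_pos n with rfl | hpos
    · have hm : maximalIdeal R = ⊥ :=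
        (Submodule.spanFinrank_eq_zero_iff_eq_bot (IsNoetherian.noetherian _)).1 hn
      exact (IsLocalRing.isField_iff_maximalIdeal_eq.2 hm).isDomain
    have havoid : ¬((maximalIdeal R : Set R) ⊆
        ⋃ i ∈ insert (maximalIdeal R ^ 2) (minimalPrimes R), (i : Set R)) := by
      rw [Ideal.subset_union_prime_finite ((minimalPrimes.finite_of_isNoetherianRing R).insert _)
        (maximalIdeal R ^ 2) (maximalIdeal R ^ 2)]
      swap
      · rintro i (rfl | hi) h1 -
        · exact absurd rfl h1
        · exact hi.1.1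
      rintro ⟨i, (rfl | hi), hle⟩
      · obtain ⟨x, hx, hx2⟩ := exists_mem_notMem_sq (R := R) (by omega)
        exact hx2 (hle hx)
      · have := hi.1.1
        have heq : i = maximalIdeal R := le_antisymm (le_maximalIdeal this.ne_top) hle
        rw [← Ideal.height_eq_zero_iff, heq, ← WithBot.coe_inj,
          maximalIdeal_height_eq_ringKrullDim, ← IsRegularLocalRing.spanFinrank_maximalIdeal,
          hn] at hi
        norm_cast at hi
        omega
    obtain ⟨x, hx, hx'⟩ := Set.not_subset.1 havoid
    simp only [Set.mem_iUnion, exists_prop, not_exists, not_and, SetLike.mem_coe] at hx'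
    have hx2 := hx' _ (Set.mem_insert _ _)
    have := isRegularLocalRing_quotient hx hx2
    have hlt := spanFinrank_quotient_add_one_le hx hx2
    have := ih _ (by omega) (R ⧸ Ideal.span {x}) rfl
    have hP : (Ideal.span {x}).IsPrime := (Ideal.Quotient.isDomain_iff_prime _).1 this
    obtain ⟨q, hq, hqle⟩ := Ideal.exists_minimalPrimes_le (bot_le : (⊥ : Ideal R) ≤ Ideal.span {x})
    have hxq : x ∉ q := hx' q (Set.mem_insert_of_mem _ hq)
    have hqbot : q = ⊥ := by
      refine Submodule.eq_bot_of_le_smul_of_le_jacobson_bot (Ideal.span {x}) q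
        (IsNoetherian.noetherian _) (fun y hy => ?_)
        (((Ideal.span_singleton_le_iff_mem _).2 hx).trans (maximalIdeal_le_jacobson _))
      obtain ⟨r, rfl⟩ := Ideal.mem_span_singleton'.1 (hqle hy)
      rw [mul_comm]
      exact Submodule.smul_mem_smul (Ideal.mem_span_singleton_self x)
        ((hq.1.1.mem_or_mem hy).resolve_right hxq)
    exact IsDomain.of_bot_isPrime R (hbp := hqbot ▸ hq.1.1)

/-- Regular local rings are domains. -/
theorem isDomain_of_isRegularLocalRing (R : Type u) [CommRing R] [IsRegularLocalRing R] :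
    IsDomain R :=
  isDomain_aux _ R rfl

/-- An element outside `m ^ 2` of a regular local ring is prime. -/
theorem prime_of_notMem_sq {R : Type u} [CommRing R] [IsRegularLocalRing R] {x : R}
    (hx : x ∈ maximalIdeal R)
    (hx2 : x ∉ maximalIdeal R ^ 2) : Prime x := by
  have := isRegularLocalRing_quotient hx hx2
  have := isDomain_of_isRegularLocalRing (R ⧸ Ideal.span {x})
  have hne : x ≠ 0 := fun h => hx2 (h ▸ Ideal.zero_mem _)
  exact (Ideal.span_singleton_prime hne).1 ((Ideal.Quotient.isDomain_iff_prime _).1 this)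

theorem finitePd_aux (n : ℕ) : ∀ (R : Type u) [CommRing R] [IsRegularLocalRing R],
    (maximalIdeal R).spanFinrank = n → ∀ (M : Type u) [AddCommGroup M] [Module R M]
      [Module.Finite R M], FinitePd R M := by
  induction n using Nat.strong_induction_on with
  | _ n ih =>
    intro R _ _ hn M _ _ _
    rcases Nat.eq_zero_or_pos n with rfl | hpos
    · have hm : maximalIdeal R = ⊥ :=
        (Submodule.spanFinrank_eq_zero_iff_eq_bot (IsNoetherian.noetherian _)).1 hn
      let := (IsLocalRing.isField_iff_maximalIdeal_eq.2 hm).toField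
      exact ⟨0, pdLE_of_projective 0⟩
    obtain ⟨x, hx, hx2⟩ := exists_mem_notMem_sq (R := R) (by omega)
    have := isRegularLocalRing_quotient hx hx2
    have := isDomain_of_isRegularLocalRing R
    have hlt := spanFinrank_quotient_add_one_le hx hx2
    have hne : x ≠ 0 := fun h => hx2 (h ▸ Ideal.zero_mem _)
    have hreg : IsSMulRegular R x := fun a b h => mul_left_cancel₀ hne h
    obtain ⟨k, g, hg⟩ := Module.Finite.exists_fin' R M
    have hK : IsSMulRegular (LinearMap.ker g) x :=
      isSMulRegular_submodule (N := Fin k → R) (fun a b e => funext fun i => hreg (congrFun e i)) _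
    have hfin : Module.Finite (R ⧸ Ideal.span {x})
        (LinearMap.ker g ⧸ Ideal.span {x} • (⊤ : Submodule R (LinearMap.ker g))) :=
      Module.Finite.of_restrictScalars_finite R _ _
    obtain ⟨m, hm⟩ := ih _ (by omega) (R ⧸ Ideal.span {x}) rfl
      (LinearMap.ker g ⧸ Ideal.span {x} • (⊤ : Submodule R (LinearMap.ker g)))
    exact FinitePd.right (M := LinearMap.ker g) (LinearMap.ker g).injective_subtype hg
      (LinearMap.exact_subtype_ker_map g) ⟨m, hm.of_reduce hreg hx hK⟩ ⟨0, pdLE_of_projective 0⟩

/-- Finitely generated modules over a regular local ring have finite projective dimension. -/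
theorem finitePd_of_isRegularLocalRing (R : Type u) [CommRing R] [IsRegularLocalRing R]
    (M : Type u) [AddCommGroup M] [Module R M] [Module.Finite R M] : FinitePd R M :=
  finitePd_aux _ R rfl M

end Fermat.Agent.RegularFactorial
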