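import Fermat.Agent.RegularFactorial.Basic
import Mathlib.RingTheory.Ideal.AssociatedPrime.Finiteness
import Mathlib.RingTheory.KrullDimension.Regular

/-!
# Serre's criterion

A noetherian local ring whose residue field has finite projective dimension is regular.
-/

set_option autoImplicit false

universe u

open IsLocalRing

namespace Fermat.Agent.RegularFactorial

/-- If the maximal ideal is annihilated by a nonzero element, modules of finite projective
dimension are free. -/
theorem free_of_pdLE_of_mul_eq_zero {R : Type u} [CommRing R] [IsLocalRing R] [IsNoetherianRing R]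
    {s : R} (hs : s ≠ 0) (hsm : ∀ a ∈ maximalIdeal R, s * a = 0) (n : ℕ) :
    ∀ (M : Type u) [AddCommGroup M] [Module R M] [Module.Finite R M],
      PdLE R M n → Module.Free R M := by
  induction n with
  | zero =>
    intro M _ _ _ h
    have := pdLE_zero_iff.1 h
    exact Module.free_of_flat_of_isLocalRing
  | succ n ih =>
    intro M _ _ _ h
    classical
    obtain ⟨G, hG, hspan⟩ := Submodule.FG.exists_span_finset_card_eq_spanFinrank
      (Module.Finite.fg_top (R := R) (M := M))
    set g := Fintype.linearCombination R (fun i : G => (i : M)) with hg'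
    have hg : Function.Surjective g := by
      rw [← LinearMap.range_eq_top, hg', Fintype.range_linearCombination, Subtype.range_coe_subtype,
        Finset.setOfPred_mem, hspan]
    have hmem : ∀ a ∈ LinearMap.ker g, ∀ i, a i ∈ maximalIdeal R := by
      intro a ha j
      by_contra hj
      obtain ⟨u, hu⟩ := notMem_maximalIdeal.1 hj
      have hsum : a j • (j : M) + ∑ i ∈ Finset.univ.erase j, a i • (i : M) = 0 := by
        rw [Finset.add_sum_erase _ (fun i : G => a i • (i : M)) (Finset.mem_univ j)]
        exact LinearMap.mem_ker.1 ha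
      have hj' : (j : M) ∈ Submodule.span R ((G.erase j : Finset M) : Set M) := by
        have h1 : (j : M) = (↑u⁻¹ : R) • -∑ i ∈ Finset.univ.erase j, a i • (i : M) := by
          rw [← eq_neg_of_add_eq_zero_left hsum, ← hu, smul_smul, Units.inv_mul, one_smul]
        have h2 : (↑u⁻¹ : R) • -∑ i ∈ Finset.univ.erase j, a i • (i : M) ∈
            Submodule.span R ((G.erase j : Finset M) : Set M) :=
          Submodule.smul_mem _ _ (Submodule.neg_mem _ (Submodule.sum_mem _ fun i hi =>
            Submodule.smul_mem _ _ (Submodule.subset_span (Finset.mem_erase.2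
              ⟨fun e => (Finset.mem_erase.1 hi).1 (Subtype.ext e), i.2⟩))))
        rwa [← h1] at h2
      have heq : (⊤ : Submodule R M) = Submodule.span R ((G.erase j : Finset M) : Set M) := by
        refine le_antisymm ?_ le_top
        rw [← hspan, Submodule.span_le]
        intro i hi
        by_cases hij : i = j
        · rw [hij]; exact hj'
        · exact Submodule.subset_span (Finset.mem_erase.2 ⟨hij, hi⟩)
      have h1 := Submodule.spanFinrank_span_le_ncard_of_finite (R := R)
        (G.erase (j : M)).finite_toSet
      rw [← heq, Set.ncard_coe_finset, ← hG, ← Finset.card_erase_add_one j.2] at h1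
      omega
    have := ih (LinearMap.ker g) ((pdLE_left_iff_right (M := LinearMap.ker g)
      (LinearMap.ker g).injective_subtype hg (LinearMap.exact_subtype_ker_map g) n).1 h)
    let b := Module.Free.chooseBasis R (LinearMap.ker g)
    have : IsEmpty (Module.Free.ChooseBasisIndex R (LinearMap.ker g)) := ⟨fun i => hs (by
      have h0 : s • b i = 0 := Subtype.ext (funext fun j => by
        simpa using hsm _ (hmem _ (b i).2 j))
      simpa using DFunLike.congr_fun (congrArg b.repr h0) i)⟩
    have hker : LinearMap.ker g = ⊥ := by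
      have := b.repr.injective.subsingleton
      exact Submodule.eq_bot_of_subsingleton
    exact Module.Free.of_equiv (LinearEquiv.ofBijective g ⟨LinearMap.ker_eq_bot.1 hker, hg⟩)

/-- If every element of `m` is a zero divisor and the residue field has finite projective
dimension, the ring is a field. -/
theorem maximalIdeal_eq_bot_of_mem_associatedPrimes {R : Type u} [CommRing R] [IsLocalRing R]
    [IsNoetherianRing R] (hass : maximalIdeal R ∈ associatedPrimes R R)
    (h : FinitePd R (R ⧸ maximalIdeal R)) : maximalIdeal R = ⊥ := by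
  obtain ⟨hprime, s, hs⟩ := isAssociatedPrime_iff.1 (AssociatedPrimes.mem_iff.1 hass)
  have hs0 : s ≠ 0 := fun h0 => hprime.ne_top (by
    rw [hs, h0]
    exact eq_top_iff.2 fun r _ => by simp [Submodule.mem_colon_singleton])
  have hsm : ∀ a ∈ maximalIdeal R, s * a = 0 := fun a ha => by
    rw [hs, Submodule.mem_colon_singleton, Submodule.mem_bot, smul_eq_mul] at ha
    rw [mul_comm, ha]
  obtain ⟨n, hn⟩ := h
  have := free_of_pdLE_of_mul_eq_zero hs0 hsm n _ hn
  let b := Module.Free.chooseBasis R (R ⧸ maximalIdeal R)
  obtain ⟨i⟩ : Nonempty (Module.Free.ChooseBasisIndex R (R ⧸ maximalIdeal R)) :=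
    b.index_nonempty
  rw [eq_bot_iff]
  intro a ha
  have h0 : a • b i = 0 := by
    obtain ⟨y, hy⟩ := Ideal.Quotient.mk_surjective (b i)
    rw [← hy, ← Ideal.Quotient.mkₐ_eq_mk R, ← map_smul, Ideal.Quotient.mkₐ_eq_mk,
      Ideal.Quotient.eq_zero_iff_mem, smul_eq_mul]
    exact Ideal.mul_mem_right _ _ ha
  simpa using DFunLike.congr_fun (congrArg b.repr h0) i

theorem exists_regular_notMem_sq {R : Type u} [CommRing R] [IsLocalRing R] [IsNoetherianRing R]
    (hass : maximalIdeal R ∉ associatedPrimes R R) (hne : (maximalIdeal R).spanFinrank ≠ 0) :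
    ∃ x, x ∈ maximalIdeal R ∧ x ∉ maximalIdeal R ^ 2 ∧ IsSMulRegular R x := by
  have havoid : ¬((maximalIdeal R : Set R) ⊆
      ⋃ i ∈ insert (maximalIdeal R ^ 2) (associatedPrimes R R), (i : Set R)) := by
    rw [Ideal.subset_union_prime_finite ((associatedPrimes.finite R R).insert _)
      (maximalIdeal R ^ 2) (maximalIdeal R ^ 2)]
    swap
    · rintro i (rfl | hi) h1 -
      · exact absurd rfl h1
      · exact hi.isPrime
    rintro ⟨i, (rfl | hi), hle⟩
    · obtain ⟨x, hx, hx2⟩ := exists_mem_notMem_sq hne
      exact hx2 (hle hx)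
    · exact hass (le_antisymm (le_maximalIdeal hi.isPrime.ne_top) hle ▸ hi)
  obtain ⟨x, hx, hx'⟩ := Set.not_subset.1 havoid
  simp only [Set.mem_iUnion, exists_prop, not_exists, not_and, SetLike.mem_coe] at hx'
  refine ⟨x, hx, hx' _ (Set.mem_insert _ _), fun a b hab => ?_⟩
  have hnz : x ∈ nonZeroDivisors R := by
    by_contra hc
    rw [← SetLike.mem_coe, ← Set.mem_compl_iff, ← biUnion_associatedPrimes_eq_compl_nonZeroDivisors,
      Set.mem_iUnion₂] at hc
    obtain ⟨i, hi, hxi⟩ := hc
    exact hx' i (Set.mem_insert_of_mem _ hi) hxi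
  exact (mul_cancel_left_mem_nonZeroDivisors hnz).1 hab

theorem criterion_aux (n : ℕ) : ∀ (R : Type u) [CommRing R] [IsLocalRing R] [IsNoetherianRing R],
    (maximalIdeal R).spanFinrank = n → FinitePd R (R ⧸ maximalIdeal R) → IsRegularLocalRing R := by
  induction n using Nat.strong_induction_on with
  | _ n ih =>
    intro R _ _ _ hn h
    rcases Nat.eq_zero_or_pos n with rfl | hpos
    · refine IsRegularLocalRing.of_spanFinrank_maximalIdeal_le _ ?_
      rw [hn]
      exact ringKrullDim_nonneg_of_nontrivial
    by_cases hass : maximalIdeal R ∈ associatedPrimes R R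
    · rw [maximalIdeal_eq_bot_of_mem_associatedPrimes hass h, Submodule.spanFinrank_bot] at hn
      omega
    obtain ⟨x, hx, hx2, hreg⟩ := exists_regular_notMem_sq hass (by omega)
    obtain ⟨s, hs, -, hsx⟩ := exists_complement hx hx2
    have := isLocalRing_quotient hx
    have hlt := spanFinrank_quotient_add_one_le hx hx2
    set m := maximalIdeal R with hm
    set m' := maximalIdeal (R ⧸ Ideal.span {x}) with hm'
    set b := Ideal.span (s : Set R) with hb
    have hmap : m.map (Ideal.Quotient.mk (Ideal.span {x})) = m' := map_maximalIdeal_quotient hx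
    have hmR : FinitePd R m := FinitePd.left (M := m) (N := R) (P := R ⧸ m)
      (f := Submodule.subtype m) (g := Submodule.mkQ m) m.injective_subtype
      (Submodule.mkQ_surjective m) (LinearMap.exact_subtype_mkQ m) ⟨0, pdLE_of_projective 0⟩ h
    obtain ⟨k, hk⟩ := hmR
    have hred := hk.reduce hreg (isSMulRegular_submodule hreg m)
    -- the natural map and its section
    set π₀ : m →ₗ[R] m' := (((Submodule.mkQ (Ideal.span {x})).comp m.subtype).codRestrict
      (m'.restrictScalars R) fun y => hmap ▸ Ideal.mem_map_of_mem _ y.2 :) with hπ₀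
    have hker : Ideal.span {x} • (⊤ : Submodule R m) ≤ LinearMap.ker π₀ := by
      intro y hy
      obtain ⟨z, rfl⟩ := (mem_span_smul_top_iff x y).1 hy
      refine LinearMap.mem_ker.2 (Subtype.ext ?_)
      change Ideal.Quotient.mk (Ideal.span {x}) ((x • z : m) : R) = 0
      rw [Ideal.Quotient.eq_zero_iff_mem, Submodule.coe_smul, smul_eq_mul]
      exact Ideal.mul_mem_right _ _ (Ideal.mem_span_singleton_self x)
    set π := Submodule.liftQ _ π₀ hker with hπ
    have hbm : b ≤ m := hs ▸ le_sup_right
    set p := π₀.comp (Submodule.inclusion hbm) with hp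
    have hp' : Function.Surjective p := fun y => by
      obtain ⟨r, hr⟩ := Ideal.Quotient.mk_surjective (y : R ⧸ Ideal.span {x})
      have hrm : r ∈ m := by
        by_contra hc
        have := (notMem_maximalIdeal.1 hc).map (Ideal.Quotient.mk (Ideal.span {x}))
        rw [hr] at this
        exact notMem_maximalIdeal.2 this y.2
      rw [hs, Submodule.mem_sup] at hrm
      obtain ⟨a, ha, c, hc, rfl⟩ := hrm
      refine ⟨⟨c, hc⟩, Subtype.ext ?_⟩
      change Ideal.Quotient.mk (Ideal.span {x}) c = _
      rw [← hr, map_add, Ideal.Quotient.eq_zero_iff_mem.2 ha, zero_add]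
    set q := (Submodule.mkQ (Ideal.span {x} • (⊤ : Submodule R m))).comp
      (Submodule.inclusion hbm) with hq
    have hpq : LinearMap.ker p ≤ LinearMap.ker q := by
      intro y hy
      have h1 : Ideal.Quotient.mk (Ideal.span {x}) (y : R) = 0 :=
        congrArg Subtype.val (LinearMap.mem_ker.1 hy)
      obtain ⟨r, hr⟩ := Ideal.mem_span_singleton'.1 (Ideal.Quotient.eq_zero_iff_mem.1 h1)
      have hrm : r ∈ m := hsx r (hr ▸ y.2)
      rw [LinearMap.mem_ker, hq, LinearMap.comp_apply, Submodule.mkQ_apply,
        Submodule.Quotient.mk_eq_zero, mem_span_smul_top_iff]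
      exact ⟨⟨r, hrm⟩, Subtype.ext (by simpa [mul_comm] using hr)⟩
    set ι := (Submodule.liftQ _ q hpq).comp
      (LinearMap.quotKerEquivOfSurjective p hp').symm.toLinearMap with hι
    have hπι : π.comp ι = LinearMap.id := by
      ext y : 1
      obtain ⟨z, rfl⟩ := hp' y
      have hz : (LinearMap.quotKerEquivOfSurjective p hp').symm (p z) = Submodule.Quotient.mk z :=
        (LinearEquiv.symm_apply_eq _).2 rfl
      simp only [hι, LinearMap.comp_apply, LinearEquiv.coe_coe, hz, LinearMap.id_apply]
      rfl
    have hsurj : Function.Surjective (algebraMap R (R ⧸ Ideal.span {x})) :=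
      Ideal.Quotient.mk_surjective
    have hm'pd : FinitePd (R ⧸ Ideal.span {x}) m' :=
      FinitePd.of_retract (f := ι.extendScalarsOfSurjective hsurj)
        (g := π.extendScalarsOfSurjective hsurj)
        (LinearMap.ext fun y => LinearMap.congr_fun hπι y) ⟨k, hred⟩
    have hk' : FinitePd (R ⧸ Ideal.span {x}) ((R ⧸ Ideal.span {x}) ⧸ m') :=
      FinitePd.right (M := m') (f := Submodule.subtype m') (g := Submodule.mkQ m')
        m'.injective_subtype (Submodule.mkQ_surjective m') (LinearMap.exact_subtype_mkQ m') hm'pd
        ⟨0, pdLE_of_projective 0⟩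
    have := ih m'.spanFinrank (by omega) (R ⧸ Ideal.span {x}) rfl hk'
    have hdim := ringKrullDim_quotient_span_singleton_succ_eq_ringKrullDim_of_mem_jacobson hreg
      (ringJacobson_eq_maximalIdeal R ▸ hx)
    refine IsRegularLocalRing.of_spanFinrank_maximalIdeal_le _ ?_
    rw [← hdim, ← IsRegularLocalRing.spanFinrank_maximalIdeal]
    have hle : (maximalIdeal R).spanFinrank ≤
        (maximalIdeal (R ⧸ Ideal.span {x})).spanFinrank + 1 := by
      classical
      obtain ⟨G, hG, hGspan⟩ := Submodule.FG.exists_span_finset_card_eq_spanFinrank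
        (IsNoetherian.noetherian (maximalIdeal (R ⧸ Ideal.span {x})))
      choose f hf using fun g : R ⧸ Ideal.span {x} => Ideal.Quotient.mk_surjective g
      have heq : maximalIdeal R = Submodule.span R ((insert x (G.image f) : Finset R) : Set R) := by
        refine le_antisymm (fun r hr => ?_) (Submodule.span_le.2 ?_)
        · have h1 : Ideal.Quotient.mk _ r ∈ Ideal.map (Ideal.Quotient.mk (Ideal.span {x}))
              (Ideal.span ((G.image f : Finset R) : Set R)) := by
            rw [Ideal.map_span, Finset.coe_image, Set.image_image]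
            simp only [hf, Set.image_id']
            rw [show Ideal.span (G : Set (R ⧸ Ideal.span {x})) = m' from hGspan, ← hmap]
            exact Ideal.mem_map_of_mem _ hr
          rw [Ideal.mem_map_iff_of_surjective _ Ideal.Quotient.mk_surjective] at h1
          obtain ⟨c, hc, hcr⟩ := h1
          rw [Ideal.Quotient.eq, Ideal.mem_span_singleton'] at hcr
          obtain ⟨d, hd⟩ := hcr
          rw [show r = c - d * x by rw [hd]; ring, Finset.coe_insert]
          exact Ideal.sub_mem _ (Ideal.span_mono (Set.subset_insert _ _) hc)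
            (Ideal.mul_mem_left _ _ (Ideal.subset_span (Set.mem_insert _ _)))
        · intro r hr
          rcases Finset.mem_insert.1 hr with rfl | hr
          · exact hx
          · obtain ⟨g, hg, rfl⟩ := Finset.mem_image.1 hr
            by_contra hc
            have h1 := (notMem_maximalIdeal.1 hc).map (Ideal.Quotient.mk (Ideal.span {x}))
            rw [hf] at h1
            exact notMem_maximalIdeal.2 h1 (hGspan ▸ Submodule.subset_span hg)
      calc (maximalIdeal R).spanFinrank
          = (Submodule.span R ((insert x (G.image f) : Finset R) : Set R)).spanFinrank := by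
            rw [← heq]
        _ ≤ (insert x (G.image f)).card :=
            (Submodule.spanFinrank_span_le_ncard_of_finite (Finset.finite_toSet _)).trans_eq
              (Set.ncard_coe_finset _)
        _ ≤ (G.image f).card + 1 := Finset.card_insert_le _ _
        _ ≤ _ := hG ▸ Nat.succ_le_succ Finset.card_image_le
    exact_mod_cast hle

/-- **Serre's criterion**: finite projective dimension of the residue field implies regularity. -/
theorem isRegularLocalRing_of_finitePd (R : Type u) [CommRing R] [IsLocalRing R]
    [IsNoetherianRing R] (h : FinitePd R (R ⧸ maximalIdeal R)) : IsRegularLocalRing R :=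
  criterion_aux _ R rfl h

end Fermat.Agent.RegularFactorial
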