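import Fermat.Agent.RegularFactorial.Localization
import Mathlib.LinearAlgebra.Determinant
import Mathlib.LinearAlgebra.Matrix.Determinant.Basic
import Mathlib.RingTheory.Ideal.UFD
import Mathlib.RingTheory.Localization.Algebra
import Mathlib.RingTheory.Localization.LocalizationLocalization

/-!
# The theorem of Auslander and Buchsbaum

Regular local rings are unique factorisation domains: after inverting a prime outside `m ^ 2` the
height one primes are projective and stably free, hence principal.
-/

set_option autoImplicit false

universe u

namespace Fermat.Agent.RegularFactorial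

/-- The module becomes free after adding a free module of finite rank. -/
def StablyFree (A : Type u) [CommRing A] (M : Type u) [AddCommGroup M] [Module A M] : Prop :=
  ∃ a b : ℕ, Nonempty ((M × (Fin a → A)) ≃ₗ[A] (Fin b → A))

/-- A stably free ideal of a domain is principal, generated by a determinant. -/
theorem isPrincipal_of_stablyFree {A : Type u} [CommRing A] [IsDomain A] (P : Ideal A)
    (hP : StablyFree A P) : P.IsPrincipal := by
  rcases eq_or_ne P ⊥ with rfl | hne
  · exact bot_isPrincipal
  obtain ⟨p₀, hp₀, hp0⟩ := Submodule.exists_mem_ne_zero_of_ne_bot hne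
  obtain ⟨a, b, ⟨e⟩⟩ := hP
  let ι : (P × (Fin a → A)) →ₗ[A] (Fin (a + 1) → A) :=
    { toFun := fun v => Fin.cons (v.1 : A) v.2
      map_add' := fun v w => funext fun i => by
        refine Fin.cases ?_ ?_ i <;> intros <;> simp
      map_smul' := fun c v => funext fun i => by
        refine Fin.cases ?_ ?_ i <;> intros <;> simp }
  have hι : Function.Injective ι := fun v w h => by
    refine Prod.ext (Subtype.ext ?_) (funext fun i => ?_)
    · simpa [ι] using congrFun h 0
    · simpa [ι] using congrFun h i.succ
  let ρ : P → (Fin (a + 1) → A) →ₗ[A] (P × (Fin a → A)) := fun p =>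
    LinearMap.prod ((LinearMap.proj 0).smulRight p) (LinearMap.funLeft A A Fin.succ)
  have hρ : Function.Injective (ρ ⟨p₀, hp₀⟩) := fun v w h => funext fun i => by
    refine Fin.cases ?_ ?_ i
    · exact mul_right_cancel₀ hp0 (congrArg (fun z : P × (Fin a → A) => (z.1 : A)) h)
    · exact fun i => congrFun (congrArg Prod.snd h) i
  have hb : b = a + 1 := le_antisymm
    (le_of_fin_injective A (ι.comp e.symm.toLinearMap) (hι.comp e.symm.injective))
    (le_of_fin_injective A (e.toLinearMap.comp (ρ ⟨p₀, hp₀⟩)) (e.injective.comp hρ))
  subst hb
  set φ := ι.comp e.symm.toLinearMap with hφ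
  have hmem : LinearMap.det φ ∈ P := by
    rw [← LinearMap.det_toMatrix', Matrix.det_succ_row_zero]
    refine Submodule.sum_mem _ fun j _ => ?_
    refine Ideal.mul_mem_right _ _ (Ideal.mul_mem_left _ _ ?_)
    rw [LinearMap.toMatrix'_apply]
    exact (e.symm _).1.2
  refine ⟨⟨LinearMap.det φ, le_antisymm (fun p hp => ?_)
    ((Submodule.span_singleton_le_iff_mem _ _).2 hmem)⟩⟩
  have hcomp : LinearMap.det (φ.comp (e.toLinearMap.comp (ρ ⟨p, hp⟩))) = p := by
    rw [← LinearMap.det_toMatrix']
    have hdiag : LinearMap.toMatrix' (φ.comp (e.toLinearMap.comp (ρ ⟨p, hp⟩))) =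
        Matrix.diagonal (Fin.cons p fun _ => 1) := by
      ext i j
      rw [LinearMap.toMatrix'_apply]
      simp only [hφ, LinearMap.comp_apply, LinearEquiv.coe_coe, LinearEquiv.symm_apply_apply]
      refine Fin.cases ?_ ?_ i
      · refine Fin.cases ?_ ?_ j <;> intros <;>
          simp [ι, ρ, (Fin.succ_ne_zero _).symm]
      · intro i
        refine Fin.cases ?_ ?_ j <;> intros <;>
          simp [ι, ρ, Pi.single_apply, Matrix.diagonal_apply, eq_comm]
    rw [hdiag, Matrix.det_diagonal, Fin.prod_univ_succ]
    simp
  rw [LinearMap.det_comp, mul_comm] at hcomp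
  exact Submodule.mem_span_singleton.2 ⟨_, hcomp⟩

/-- A localisation of a module of finite projective dimension over a local ring is stably free
when it is projective. -/
theorem stablyFree_localized {R : Type u} [CommRing R] [IsLocalRing R] [IsNoetherianRing R]
    (S : Submonoid R) [Nontrivial (Localization S)] (n : ℕ) :
    ∀ (M : Type u) [AddCommGroup M] [Module R M] [Module.Finite R M], PdLE R M n →
      Module.Projective (Localization S) (LocalizedModule S M) →
      StablyFree (Localization S) (LocalizedModule S M) := by
  induction n with
  | zero =>
    intro M _ _ _ h _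
    have := pdLE_zero_iff.1 h
    have : Module.Free R M := Module.free_of_flat_of_isLocalRing
    have : Module.Free (Localization S) (LocalizedModule S M) :=
      Module.free_of_isLocalizedModule S (LocalizedModule.mkLinearMap S M)
    have : Module.Finite (Localization S) (LocalizedModule S M) :=
      Module.Finite.of_isLocalizedModule S (LocalizedModule.mkLinearMap S M)
    exact ⟨0, _, ⟨LinearEquiv.prodUnique.trans
      (Module.finBasis (Localization S) (LocalizedModule S M)).equivFun⟩⟩
  | succ n ih =>
    intro M _ _ _ h hproj
    obtain ⟨k, g, hg⟩ := Module.Finite.exists_fin' R M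
    have hfg := LinearMap.exact_subtype_ker_map g
    have h1 := localizedMap_injective S (M := LinearMap.ker g) (N := Fin k → R)
      (f := (LinearMap.ker g).subtype) (LinearMap.ker g).injective_subtype
    have h2 := localizedMap_surjective S (M := Fin k → R) (N := M) (f := g) hg
    have h3 := localizedMap_exact S (M := LinearMap.ker g) (N := Fin k → R) (P := M)
      (f := (LinearMap.ker g).subtype) (g := g) hfg
    obtain ⟨l, hl⟩ := Module.projective_lifting_property (LocalizedModule.map S g) LinearMap.id h2
    obtain ⟨E, -, -⟩ := h3.splitSurjectiveEquiv h1 ⟨l, hl⟩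
    have : Module.Free (Localization S) (LocalizedModule S (Fin k → R)) :=
      Module.free_of_isLocalizedModule S (LocalizedModule.mkLinearMap S (Fin k → R))
    have : Module.Finite (Localization S) (LocalizedModule S (Fin k → R)) :=
      Module.Finite.of_isLocalizedModule S (LocalizedModule.mkLinearMap S (Fin k → R))
    have : Module.Projective (Localization S) (LocalizedModule S (LinearMap.ker g)) :=
      Module.Projective.of_split (E.symm.toLinearMap.comp (LinearMap.inl _ _ _))
        ((LinearMap.fst _ _ _).comp E.toLinearMap) (by ext y; simp)
    obtain ⟨a, b, ⟨e⟩⟩ := ih (LinearMap.ker g) ((pdLE_left_iff_right (M := LinearMap.ker g)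
      (LinearMap.ker g).injective_subtype hg hfg n).1 h) inferInstance
    let c := (Module.finBasis (Localization S) (LocalizedModule S (Fin k → R))).equivFun
    refine ⟨b, Module.finrank (Localization S) (LocalizedModule S (Fin k → R)) + a, ⟨?_⟩⟩
    -- `M ⊕ A^b ≅ M ⊕ K ⊕ A^a ≅ A^c ⊕ A^a`
    exact ((LinearEquiv.refl _ _).prodCongr e.symm).trans <|
      (LinearEquiv.prodAssoc _ _ _ _).symm.trans <|
      ((((LinearEquiv.prodComm _ _ _).trans E.symm).trans c).prodCongr
        (LinearEquiv.refl _ _)).trans <|
      (LinearEquiv.sumArrowLequivProdArrow _ _ _ _).symm.trans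
        (LinearEquiv.funCongrLeft _ _ finSumFinEquiv.symm)

open IsLocalRing in
theorem factorial_aux (n : ℕ) : ∀ (R : Type u) [CommRing R] [IsRegularLocalRing R],
    (maximalIdeal R).spanFinrank = n → UniqueFactorizationMonoid R := by
  induction n using Nat.strong_induction_on with
  | _ n ih =>
    intro R _ _ hn
    have := isDomain_of_isRegularLocalRing R
    rcases Nat.eq_zero_or_pos n with rfl | hpos
    · have hm : maximalIdeal R = ⊥ :=
        (Submodule.spanFinrank_eq_zero_iff_eq_bot (IsNoetherian.noetherian _)).1 hn
      let := (IsLocalRing.isField_iff_maximalIdeal_eq.2 hm).toField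
      infer_instance
    obtain ⟨x, hx, hx2⟩ := exists_mem_notMem_sq (R := R) (by omega)
    have hprime := prime_of_notMem_sq hx hx2
    rw [UniqueFactorizationMonoid.iff_localizationAway_of_prime hprime]
    have : IsDomain (Localization.Away x) :=
      IsLocalization.Away.isDomain (Localization.Away x) hprime.ne_zero
    have : IsNoetherianRing (Localization.Away x) :=
      IsLocalization.isNoetherianRing (Submonoid.powers x) _ inferInstance
    refine UniqueFactorizationMonoid.of_forall_isPrincipal_of_height_eq_one fun P _ hP1 => ?_
    have : Module.FinitePresentation (Localization.Away x) P :=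
      Module.finitePresentation_of_finite _ _
    -- the height one prime is projective
    have hproj : Module.Projective (Localization.Away x) P := by
      refine Module.projective_of_localization_maximal'
        (Rₚ := fun Q _ => Localization.AtPrime Q)
        (Mₚ := fun Q _ => P.map (algebraMap (Localization.Away x) (Localization.AtPrime Q)))
        (f := fun Q _ => Algebra.idealMap P (S := Localization.AtPrime Q)) fun Q hQ => ?_
      set q := Q.comap (algebraMap R (Localization.Away x)) with hq
      set A := Localization.AtPrime Q with hA
      have : IsLocalization.AtPrime A q :=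
        IsLocalization.isLocalization_isLocalization_atPrime_isLocalization
          (Submonoid.powers x) A Q
      have := isRegularLocalRing_localization R q
      have : IsRegularLocalRing A := IsRegularLocalRing.of_ringEquiv
        (IsLocalization.algEquiv q.primeCompl (Localization.AtPrime q) A).toRingEquiv
      have hxq : x ∉ q := fun h => hQ.ne_top (Ideal.eq_top_of_isUnit_mem _ h
        (IsLocalization.map_units (M := Submonoid.powers x) (Localization.Away x)
          ⟨x, Submonoid.mem_powers x⟩))
      have hlt : q < maximalIdeal R :=
        lt_of_le_of_ne (le_maximalIdeal (Ideal.IsPrime.ne_top inferInstance)) fun h => hxq (h ▸ hx)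
      have hdim : (maximalIdeal A).spanFinrank < n := by
        have h1 := Ideal.height_strict_mono_of_isPrime_of_isPrime hlt
        rw [← WithBot.coe_lt_coe, maximalIdeal_height_eq_ringKrullDim,
          ← IsLocalization.AtPrime.ringKrullDim_eq_height q A,
          ← IsRegularLocalRing.spanFinrank_maximalIdeal,
          ← IsRegularLocalRing.spanFinrank_maximalIdeal, hn] at h1
        exact_mod_cast h1
      have := ih _ hdim A rfl
      by_cases hPQ : P ≤ Q
      · have hd : Disjoint (Q.primeCompl : Set (Localization.Away x)) (P : Set _) :=
          Set.disjoint_left.2 fun y hy hy' => hy (hPQ hy')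
        have := IsLocalization.isPrime_of_isPrime_disjoint Q.primeCompl A P inferInstance hd
        obtain ⟨t, ht⟩ := UniqueFactorizationMonoid.isPrincipal_of_height_eq_one
          (p := P.map (algebraMap (Localization.Away x) A))
          ((IsLocalization.height_map_of_disjoint Q.primeCompl P hd).trans hP1)
        have ht0 : t ≠ 0 := fun h => by
          have hb : P.map (algebraMap (Localization.Away x) A) = ⊥ := by
            rw [ht, h, Submodule.span_zero_singleton]
          rw [Ideal.map_eq_bot_iff_of_injective
            (IsLocalization.injective A Q.primeCompl_le_nonZeroDivisors)] at hb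
          exact P.ne_bot_of_height_eq_one hP1 hb
        exact Module.Projective.of_equiv
          ((LinearEquiv.toSpanNonzeroSingleton A A t ht0).trans (LinearEquiv.ofEq _ _ ht.symm))
      · have htop : P.map (algebraMap (Localization.Away x) A) = ⊤ := by
          obtain ⟨y, hy, hyQ⟩ := SetLike.not_le_iff_exists.1 hPQ
          exact Ideal.eq_top_of_isUnit_mem _ (Ideal.mem_map_of_mem _ hy)
            (IsLocalization.map_units (M := Q.primeCompl) A ⟨y, hyQ⟩)
        exact Module.Projective.of_equiv
          (((LinearEquiv.ofEq _ _ htop).trans Submodule.topEquiv).symm)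
    -- and stably free
    set p := P.comap (algebraMap R (Localization.Away x)) with hp
    have hmap : p.map (algebraMap R (Localization.Away x)) = P :=
      IsLocalization.map_under (Submonoid.powers x) (Localization.Away x) P
    let E : LocalizedModule (Submonoid.powers x) p ≃ₗ[Localization.Away x] P :=
      ((IsLocalizedModule.iso (Submonoid.powers x)
        (Algebra.idealMap p (S := Localization.Away x))).extendScalarsOfIsLocalization
          (Submonoid.powers x) (Localization.Away x)).trans (LinearEquiv.ofEq _ _ hmap)
    obtain ⟨k, hk⟩ := finitePd_of_isRegularLocalRing R p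
    have : Module.Projective (Localization.Away x) (LocalizedModule (Submonoid.powers x) p) :=
      Module.Projective.of_equiv E.symm
    obtain ⟨a, b, ⟨e⟩⟩ := stablyFree_localized (Submonoid.powers x) k p hk this
    exact isPrincipal_of_stablyFree P
      ⟨a, b, ⟨(E.symm.prodCongr (LinearEquiv.refl _ _)).trans e⟩⟩

/-- **Auslander–Buchsbaum**: regular local rings are unique factorisation domains. -/
theorem uniqueFactorizationMonoid_of_isRegularLocalRing (R : Type u) [CommRing R]
    [IsRegularLocalRing R] : IsDomain R ∧ UniqueFactorizationMonoid R := by
  have := isDomain_of_isRegularLocalRing R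
  exact ⟨this, factorial_aux _ R rfl⟩

end Fermat.Agent.RegularFactorial
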