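import Fermat.Agent.RegularFactorial.Criterion
import Mathlib.Algebra.Module.LocalizedModule.Exact
import Mathlib.RingTheory.LocalProperties.Projective
import Mathlib.RingTheory.Localization.Module

/-!
# Localisations of regular local rings are regular
-/

set_option autoImplicit false

universe u

namespace Fermat.Agent.RegularFactorial

variable {R : Type u} [CommRing R] {M N : Type u} [AddCommGroup M] [Module R M] [AddCommGroup N]
  [Module R N] (S : Submonoid R)

theorem localizedMap_injective {f : M →ₗ[R] N} (hf : Function.Injective f) :
    Function.Injective (LocalizedModule.map S f) :=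
  IsLocalizedModule.map_injective S (LocalizedModule.mkLinearMap S M)
    (LocalizedModule.mkLinearMap S N) f hf

theorem localizedMap_surjective {f : M →ₗ[R] N} (hf : Function.Surjective f) :
    Function.Surjective (LocalizedModule.map S f) :=
  IsLocalizedModule.map_surjective S (LocalizedModule.mkLinearMap S M)
    (LocalizedModule.mkLinearMap S N) f hf

theorem localizedMap_exact {P : Type u} [AddCommGroup P] [Module R P] {f : M →ₗ[R] N}
    {g : N →ₗ[R] P} (h : Function.Exact f g) :
    Function.Exact (LocalizedModule.map S f) (LocalizedModule.map S g) :=
  LocalizedModule.map_exact S f g h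

/-- Localisation does not raise the projective dimension. -/
theorem PdLE.localized {n : ℕ} :
    ∀ {M : Type u} [AddCommGroup M] [Module R M], PdLE R M n →
      PdLE (Localization S) (LocalizedModule S M) n := by
  induction n with
  | zero =>
    intro M _ _ h
    have := pdLE_zero_iff.1 h
    exact pdLE_zero_iff.2 inferInstance
  | succ n ih =>
    intro M _ _ h
    set g : (M →₀ R) →ₗ[R] M := Finsupp.linearCombination R id with hg'
    have hg : Function.Surjective g := fun m => ⟨Finsupp.single m 1, by simp [hg']⟩
    have hfg := LinearMap.exact_subtype_ker_map g
    have h1 := localizedMap_injective S (M := LinearMap.ker g) (N := M →₀ R)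
      (f := (LinearMap.ker g).subtype) (LinearMap.ker g).injective_subtype
    have h2 := localizedMap_surjective S (M := M →₀ R) (N := M) (f := g) hg
    have h3 := localizedMap_exact S (M := LinearMap.ker g) (N := M →₀ R) (P := M)
      (f := (LinearMap.ker g).subtype) (g := g) hfg
    have : Module.Projective (Localization S) (LocalizedModule S (M →₀ R)) := inferInstance
    exact (pdLE_left_iff_right h1 h2 h3 n).2
      (ih ((pdLE_left_iff_right (M := LinearMap.ker g) (LinearMap.ker g).injective_subtype
        hg hfg n).1 h))

/-- Finitely generated modules over a localisation have finite projective dimension if those over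
the ring have. -/
theorem finitePd_localization
    (h : ∀ (M : Type u) [AddCommGroup M] [Module R M] [Module.Finite R M], FinitePd R M)
    (N : Type u) [AddCommGroup N] [Module R N] [Module (Localization S) N]
    [IsScalarTower R (Localization S) N] [Module.Finite (Localization S) N] :
    FinitePd (Localization S) N := by
  obtain ⟨G, hG⟩ := Module.Finite.fg_top (R := Localization S) (M := N)
  set M := Submodule.span R (G : Set N) with hM
  have hunit : ∀ x : S, IsUnit (algebraMap R (Module.End R N) x) := fun x => by
    refine (Module.End.isUnit_iff _).2 ?_
    obtain ⟨u, hu⟩ := IsLocalization.map_units (Localization S) x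
    have hbij : Function.Bijective (fun y : N => (u : Localization S) • y) :=
      ⟨fun a b e => by simpa [smul_smul] using congrArg ((↑u⁻¹ : Localization S) • ·) e,
        fun y => ⟨(↑u⁻¹ : Localization S) • y, by simp [smul_smul]⟩⟩
    convert hbij using 1
    funext y
    rw [Module.algebraMap_end_apply, hu, algebraMap_smul]
  have : IsLocalizedModule S M.subtype := by
    refine ⟨hunit, fun y => ?_, fun {a b} e => ⟨1, by rw [M.injective_subtype e]⟩⟩
    have hy : y ∈ Submodule.span (Localization S) (G : Set N) := hG ▸ Submodule.mem_top
    induction hy using Submodule.span_induction with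
    | mem z hz => exact ⟨(⟨z, Submodule.subset_span hz⟩, 1), by simp⟩
    | zero => exact ⟨(0, 1), by simp⟩
    | add a b _ _ ha hb =>
      obtain ⟨⟨za, sa⟩, ea⟩ := ha
      obtain ⟨⟨zb, sb⟩, eb⟩ := hb
      refine ⟨((sb : R) • za + (sa : R) • zb, sa * sb), ?_⟩
      simp only [Submonoid.smul_def, Submonoid.coe_mul, map_add, map_smul, smul_add] at ea eb ⊢
      rw [← ea, ← eb, smul_smul, smul_smul, mul_comm (sb : R)]
    | smul c a _ ha =>
      obtain ⟨⟨z, sa⟩, ea⟩ := ha
      obtain ⟨r, t, rfl⟩ := IsLocalization.exists_mk'_eq S c
      refine ⟨(r • z, t * sa), ?_⟩
      simp only [Submonoid.smul_def, Submonoid.coe_mul, map_smul] at ea ⊢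
      rw [← ea, ← algebraMap_smul (Localization S) ((t : R) * (sa : R)), smul_smul, map_mul,
        mul_right_comm, IsLocalization.mk'_spec', ← map_mul, algebraMap_smul, smul_smul]
  have : Module.Finite R M := Module.Finite.span_finset R G
  obtain ⟨n, hn⟩ := h M
  exact ⟨n, (hn.localized S).congr
    ((IsLocalizedModule.iso S M.subtype).extendScalarsOfIsLocalization S (Localization S))⟩

/-- **Serre**: the localisations of a regular local ring at its primes are regular. -/
theorem isRegularLocalRing_localization (R : Type u) [CommRing R] [IsRegularLocalRing R]
    (p : Ideal R) [p.IsPrime] : IsRegularLocalRing (Localization.AtPrime p) := by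
  have : IsNoetherianRing (Localization.AtPrime p) :=
    IsLocalization.isNoetherianRing p.primeCompl _ inferInstance
  exact isRegularLocalRing_of_finitePd _
    (finitePd_localization p.primeCompl (fun M => finitePd_of_isRegularLocalRing R M) _)

end Fermat.Agent.RegularFactorial
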