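import Mathlib.Algebra.Category.ModuleCat.ProjectiveDimension
import Mathlib.RingTheory.Flat.Basic
import Mathlib.RingTheory.LocalRing.Module
import Mathlib.RingTheory.QuotSMulTop

/-!
# Finite projective dimension and reduction modulo a regular element

`PdLE R M n` says that `M` has projective dimension at most `n`. For an element `x` regular on
`R` and `M` the bound passes to `M / x M` over `R / x R`, and over a noetherian local ring it
lifts back.
-/

set_option autoImplicit false

universe u

open CategoryTheory Module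

namespace Fermat.Agent.RegularFactorial

variable (R : Type u) [CommRing R]

/-- Projective dimension at most `n`. -/
def PdLE (M : Type u) [AddCommGroup M] [Module R M] (n : ℕ) : Prop :=
  HasProjectiveDimensionLE (ModuleCat.of R M) n

/-- Finite projective dimension. -/
def FinitePd (M : Type u) [AddCommGroup M] [Module R M] : Prop :=
  ∃ n, PdLE R M n

variable {R} {M N P : Type u} [AddCommGroup M] [Module R M] [AddCommGroup N] [Module R N]
  [AddCommGroup P] [Module R P]

theorem pdLE_zero_iff : PdLE R M 0 ↔ Module.Projective R M := by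
  unfold PdLE
  rw [← projective_iff_hasProjectiveDimensionLE_zero, ← IsProjective.iff_projective]

theorem pdLE_of_projective [Module.Projective R M] (n : ℕ) : PdLE R M n := by
  have : CategoryTheory.Projective (ModuleCat.of R M) := by
    rw [← IsProjective.iff_projective]; infer_instance
  exact hasProjectiveDimensionLT_of_ge _ 1 (n + 1) (by omega)

theorem PdLE.mono {n m : ℕ} (h : PdLE R M n) (hnm : n ≤ m) : PdLE R M m := by
  have : HasProjectiveDimensionLT (ModuleCat.of R M) (n + 1) := h
  exact hasProjectiveDimensionLT_of_ge _ (n + 1) (m + 1) (by omega)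

theorem PdLE.congr (e : M ≃ₗ[R] N) {n : ℕ} (h : PdLE R M n) : PdLE R N n := by
  have : HasProjectiveDimensionLE (ModuleCat.of R M) n := h
  exact ModuleCat.hasProjectiveDimensionLE_of_linearEquiv (M := ModuleCat.of R M)
    (N := ModuleCat.of R N) e n

theorem FinitePd.congr (e : M ≃ₗ[R] N) (h : FinitePd R M) : FinitePd R N :=
  h.imp fun _ hn => hn.congr e

section Exact

variable {f : M →ₗ[R] N} {g : N →ₗ[R] P} (hf : Function.Injective f) (hg : Function.Surjective g)
  (hfg : Function.Exact f g)

include hf hg hfg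

theorem shortExact_of_exact :
    (ModuleCat.shortComplexOfCompEqZero f g hfg.linearMap_comp_eq_zero).ShortExact :=
  ModuleCat.shortComplex_shortExact _ hfg hf hg

theorem pdLE_left_iff_right [Module.Projective R N] (n : ℕ) :
    PdLE R P (n + 1) ↔ PdLE R M n :=
  (shortExact_of_exact hf hg hfg).hasProjectiveDimensionLT_X₃_iff n
    ((IsProjective.iff_projective _).1 ‹_›)

theorem PdLE.of_left_middle {n : ℕ} (h₁ : PdLE R M n) (h₂ : PdLE R N (n + 1)) :
    PdLE R P (n + 1) :=
  (shortExact_of_exact hf hg hfg).hasProjectiveDimensionLT_X₃ (n + 1) h₁ h₂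

theorem PdLE.of_middle_right {n : ℕ} (h₂ : PdLE R N n) (h₃ : PdLE R P (n + 1)) : PdLE R M n :=
  (shortExact_of_exact hf hg hfg).hasProjectiveDimensionLT_X₁ (n + 1) h₂ h₃

theorem FinitePd.right (h₁ : FinitePd R M) (h₂ : FinitePd R N) : FinitePd R P := by
  obtain ⟨a, ha⟩ := h₁
  obtain ⟨b, hb⟩ := h₂
  exact ⟨max a b + 1, (ha.mono (le_max_left a b)).of_left_middle hf hg hfg
    (hb.mono (by omega))⟩

theorem FinitePd.left (h₂ : FinitePd R N) (h₃ : FinitePd R P) : FinitePd R M := by
  obtain ⟨a, ha⟩ := h₂
  obtain ⟨b, hb⟩ := h₃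
  exact ⟨max a b, (ha.mono (le_max_left a b)).of_middle_right hf hg hfg (hb.mono (by omega))⟩

end Exact

theorem FinitePd.of_retract {f : M →ₗ[R] N} {g : N →ₗ[R] M} (h : g.comp f = LinearMap.id)
    (hN : FinitePd R N) : FinitePd R M := by
  obtain ⟨n, hn⟩ := hN
  have r : Retract (ModuleCat.of R M) (ModuleCat.of R N) :=
    ⟨ModuleCat.ofHom f, ModuleCat.ofHom g, by ext x; exact LinearMap.congr_fun h x⟩
  have : HasProjectiveDimensionLT (ModuleCat.of R N) (n + 1) := hn
  exact ⟨n, r.hasProjectiveDimensionLT (n + 1)⟩

/-- The map of quotients by `I`, linear over `R ⧸ I`. -/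
noncomputable def reduceMap (I : Ideal R) (f : M →ₗ[R] N) :
    (M ⧸ I • (⊤ : Submodule R M)) →ₗ[R ⧸ I] (N ⧸ I • (⊤ : Submodule R N)) :=
  LinearMap.extendScalarsOfSurjective (R := R) (S := R ⧸ I) Ideal.Quotient.mk_surjective
    (Submodule.mapQ _ _ f (Submodule.map_le_iff_le_comap.1 (by
      rw [Submodule.map_smul'']
      exact Submodule.smul_mono le_rfl le_top)))

theorem reduceMap_mk (I : Ideal R) (f : M →ₗ[R] N) (m : M) :
    reduceMap I f (Submodule.Quotient.mk m) = Submodule.Quotient.mk (f m) :=
  rfl

instance projective_reduce (I : Ideal R) [Module.Projective R M] :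
    Module.Projective (R ⧸ I) (M ⧸ I • (⊤ : Submodule R M)) :=
  Module.Projective.of_equiv
    ((TensorProduct.quotTensorEquivQuotSMul M I).extendScalarsOfSurjective
      (R := R) (S := R ⧸ I) Ideal.Quotient.mk_surjective)

theorem mem_span_smul_top_iff (x : R) (m : M) :
    m ∈ Ideal.span {x} • (⊤ : Submodule R M) ↔ ∃ y, x • y = m := by
  rw [Submodule.ideal_span_singleton_smul, Submodule.mem_smul_pointwise_iff_exists]
  simp

section Reduce

variable {f : M →ₗ[R] N} {g : N →ₗ[R] P} {x : R}

theorem reduce_exact (hg : Function.Surjective g) (hfg : Function.Exact f g) :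
    Function.Exact (reduceMap (Ideal.span {x}) f) (reduceMap (Ideal.span {x}) g) := by
  intro m
  obtain ⟨m, rfl⟩ := Submodule.Quotient.mk_surjective _ m
  rw [reduceMap_mk]
  constructor
  · intro h
    rw [Submodule.Quotient.mk_eq_zero, mem_span_smul_top_iff] at h
    obtain ⟨y, hy⟩ := h
    obtain ⟨y, rfl⟩ := hg y
    obtain ⟨l, hl⟩ := (hfg (m - x • y)).1 (by rw [map_sub, map_smul, hy, sub_self])
    refine ⟨Submodule.Quotient.mk l, ?_⟩
    rw [reduceMap_mk, hl, Submodule.Quotient.eq, mem_span_smul_top_iff]
    exact ⟨-y, by rw [smul_neg]; abel⟩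
  · rintro ⟨l, hl⟩
    obtain ⟨l, rfl⟩ := Submodule.Quotient.mk_surjective _ l
    rw [reduceMap_mk] at hl
    rw [← reduceMap_mk, ← hl, reduceMap_mk, hfg.apply_apply_eq_zero, Submodule.Quotient.mk_zero]

theorem reduce_surjective (hg : Function.Surjective g) :
    Function.Surjective (reduceMap (Ideal.span {x}) g) := fun p => by
  obtain ⟨p, rfl⟩ := Submodule.Quotient.mk_surjective _ p
  obtain ⟨m, rfl⟩ := hg p
  exact ⟨Submodule.Quotient.mk m, rfl⟩

theorem reduce_injective (hf : Function.Injective f) (hfg : Function.Exact f g)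
    (hP : IsSMulRegular P x) : Function.Injective (reduceMap (Ideal.span {x}) f) := by
  rw [← LinearMap.ker_eq_bot, LinearMap.ker_eq_bot']
  intro l hl
  obtain ⟨l, rfl⟩ := Submodule.Quotient.mk_surjective _ l
  rw [reduceMap_mk, Submodule.Quotient.mk_eq_zero, mem_span_smul_top_iff] at hl
  obtain ⟨y, hy⟩ := hl
  have h0 : x • g y = x • 0 := by rw [← map_smul, hy, hfg.apply_apply_eq_zero, smul_zero]
  obtain ⟨l', rfl⟩ := (hfg y).1 (hP h0)
  rw [Submodule.Quotient.mk_eq_zero, mem_span_smul_top_iff]
  exact ⟨l', hf (by rw [map_smul, hy])⟩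

end Reduce

theorem isSMulRegular_pi {x : R} (hx : IsSMulRegular R x) (ι : Type u) :
    IsSMulRegular (ι →₀ R) x := fun _ _ h => by
  ext i
  exact hx (by simpa using DFunLike.congr_fun h i)

theorem isSMulRegular_submodule {x : R} (hN : IsSMulRegular N x) (K : Submodule R N) :
    IsSMulRegular K x := fun _ _ h => Subtype.ext (hN (congrArg Subtype.val h))

/-- Reduction modulo a regular element. -/
theorem PdLE.reduce {x : R} (hx : IsSMulRegular R x) {n : ℕ} :
    ∀ {M : Type u} [AddCommGroup M] [Module R M], IsSMulRegular M x → PdLE R M n →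
      PdLE (R ⧸ Ideal.span {x}) (M ⧸ Ideal.span {x} • (⊤ : Submodule R M)) n := by
  induction n with
  | zero =>
    intro M _ _ _ h
    have := pdLE_zero_iff.1 h
    exact pdLE_zero_iff.2 inferInstance
  | succ n ih =>
    intro M _ _ hM h
    set g : (M →₀ R) →ₗ[R] M := Finsupp.linearCombination R id with hg'
    have hg : Function.Surjective g := fun m => ⟨Finsupp.single m 1, by simp [hg']⟩
    have hfg := LinearMap.exact_subtype_ker_map g
    have hL := (pdLE_left_iff_right (M := LinearMap.ker g) (LinearMap.ker g).injective_subtype hg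
      hfg n).1 h
    exact (pdLE_left_iff_right (reduce_injective (LinearMap.ker g).injective_subtype hfg hM)
      (reduce_surjective hg) (reduce_exact hg hfg) n).2
      (ih (isSMulRegular_submodule (isSMulRegular_pi hx M) _) hL)

variable [IsLocalRing R] [IsNoetherianRing R]

/-- Lifting from the quotient by a regular element. -/
theorem PdLE.of_reduce {x : R} (hx : IsSMulRegular R x) (hxm : x ∈ IsLocalRing.maximalIdeal R)
    {n : ℕ} :
    ∀ {M : Type u} [AddCommGroup M] [Module R M] [Module.Finite R M], IsSMulRegular M x →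
      PdLE (R ⧸ Ideal.span {x}) (M ⧸ Ideal.span {x} • (⊤ : Submodule R M)) n → PdLE R M n := by
  have hloc : IsLocalRing (R ⧸ Ideal.span {x}) := by
    have : Nontrivial (R ⧸ Ideal.span {x}) := Ideal.Quotient.nontrivial_iff.2 fun h =>
      (IsLocalRing.maximalIdeal.isMaximal R).ne_top
        (top_le_iff.1 (h ▸ (Ideal.span_singleton_le_iff_mem _).2 hxm))
    exact IsLocalRing.of_surjective' (Ideal.Quotient.mk _) Ideal.Quotient.mk_surjective
  have hjac : Ideal.span {x} ≤ Ideal.jacobson ⊥ :=
    ((Ideal.span_singleton_le_iff_mem _).2 hxm).trans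
      (IsLocalRing.maximalIdeal_le_jacobson _)
  induction n with
  | zero =>
    intro M _ _ _ hM h
    set I := Ideal.span {x} with hI
    have : Module.Finite (R ⧸ I) (M ⧸ I • (⊤ : Submodule R M)) :=
      Module.Finite.of_restrictScalars_finite R _ _
    have := pdLE_zero_iff.1 h
    have : Module.Free (R ⧸ I) (M ⧸ I • (⊤ : Submodule R M)) :=
      Module.free_of_flat_of_isLocalRing
    let b := Module.Free.chooseBasis (R ⧸ I) (M ⧸ I • (⊤ : Submodule R M))
    choose m hm using fun i => Submodule.Quotient.mk_surjective _ (b i)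
    set g := Fintype.linearCombination R m with hg'
    have key : ∀ a : Module.Free.ChooseBasisIndex (R ⧸ I) (M ⧸ I • (⊤ : Submodule R M)) → R,
        (Submodule.Quotient.mk (g a) : M ⧸ I • (⊤ : Submodule R M)) =
          ∑ i, Ideal.Quotient.mk I (a i) • b i := fun a => by
      rw [hg', Fintype.linearCombination_apply, ← Submodule.mkQ_apply, map_sum]
      refine Finset.sum_congr rfl fun i _ => ?_
      rw [Submodule.mkQ_apply, ← Module.Quotient.mk_smul_mk, hm]
    have hg : Function.Surjective g := by
      rw [← LinearMap.range_eq_top, eq_top_iff]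
      refine Submodule.le_of_le_smul_of_le_jacobson_bot (I := I)
        Module.Finite.fg_top hjac ?_
      intro y _
      obtain ⟨a, ha⟩ : ∃ a : _ → R,
          ∑ i, Ideal.Quotient.mk I (a i) • b i = Submodule.Quotient.mk y := by
        choose a ha using fun i => Ideal.Quotient.mk_surjective (b.repr (Submodule.Quotient.mk y) i)
        exact ⟨a, by simp only [ha]; exact b.sum_repr _⟩
      rw [← key, Submodule.Quotient.eq] at ha
      rw [Submodule.mem_sup]
      exact ⟨g a, LinearMap.mem_range_self g a, y - g a,
        by simpa [neg_sub] using Submodule.neg_mem _ ha, add_sub_cancel _ _⟩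
    have hker : LinearMap.ker g = ⊥ := by
      refine Submodule.eq_bot_of_le_smul_of_le_jacobson_bot I _ (IsNoetherian.noetherian _)
        (fun a ha => ?_) hjac
      have h0 : ∀ i, Ideal.Quotient.mk I (a i) = 0 := by
        have := key a
        rw [LinearMap.mem_ker.1 ha, Submodule.Quotient.mk_zero] at this
        exact Fintype.linearIndependent_iff.1 b.linearIndependent _ this.symm
      choose a' ha' using fun i => Ideal.mem_span_singleton'.1
        (Ideal.Quotient.eq_zero_iff_mem.1 (h0 i))
      have he : a = x • a' := funext fun i => by simp [← ha' i, mul_comm]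
      rw [he]
      refine Submodule.smul_mem_smul (Ideal.mem_span_singleton_self x) (LinearMap.mem_ker.2 ?_)
      refine hM ?_
      simp only [smul_zero, ← map_smul, ← he]
      exact LinearMap.mem_ker.1 ha
    exact (pdLE_of_projective 0).congr (LinearEquiv.ofBijective g ⟨LinearMap.ker_eq_bot.1 hker, hg⟩)
  | succ n ih =>
    intro M _ _ _ hM h
    obtain ⟨k, g', hg'⟩ := Module.Finite.exists_fin' R M
    have hF : IsSMulRegular (Fin k → R) x := fun a b e => funext fun i => hx (congrFun e i)
    have hfg := LinearMap.exact_subtype_ker_map g'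
    refine (pdLE_left_iff_right (M := LinearMap.ker g') (LinearMap.ker g').injective_subtype hg'
      hfg n).2 ?_
    exact ih (isSMulRegular_submodule hF _)
      ((pdLE_left_iff_right (reduce_injective (LinearMap.ker g').injective_subtype hfg hM)
        (reduce_surjective hg') (reduce_exact hg' hfg) n).1 h)

end Fermat.Agent.RegularFactorial
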